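import Fermat.Agent.TwoAdic.Criterion.Series
import Mathlib.LinearAlgebra.Matrix.Adjugate
import Mathlib.RingTheory.Ideal.AssociatedPrime.Finiteness
import Mathlib.RingTheory.Ideal.KrullsHeightTheorem
import Mathlib.RingTheory.Ideal.MinimalPrime.Noetherian
import Mathlib.RingTheory.DiscreteValuationRing.Basic

/-!
# The socle of an artinian complete intersection

Relations `G j = a j ⬝ᵥ X` are exchanged against the variables one at a time; at each step the
socle of the quotient is spanned by the determinant of the coefficient matrix.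
-/

set_option autoImplicit false

open IsLocalRing MvPowerSeries Matrix

namespace Fermat.Agent.TwoAdic.Criterion

section General

variable {P : Type*} [CommRing P]

/-- The ideal generated by `c` and the members of the family with index in `S`. -/
noncomputable def stageIdeal {n : Type*} (c : P) (z : n → P) (S : Set n) : Ideal P :=
  Ideal.span (insert c (z '' S))

theorem stageIdeal_insert {n : Type*} (c : P) (z : n → P) (S : Set n) (k : n) :
    stageIdeal c z (insert k S) = stageIdeal c z S ⊔ Ideal.span {z k} := by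
  rw [stageIdeal, stageIdeal, ← Ideal.span_union, Set.image_insert_eq]
  congr 1
  ext
  simp only [Set.mem_insert_iff, Set.mem_union, Set.mem_singleton_iff]
  tauto

/-- Regularity survives the exchange of one element, coordinate by coordinate. -/
theorem regOn_stage_update [IsLocalRing P] [IsNoetherianRing P] {r : ℕ} (c : P)
    (z : Fin r → P) (i : Fin r) (y : P) (hz : ∀ j, i < j → z j ∈ maximalIdeal P)
    (hreg : ∀ j : Fin r, i < j → RegOn (stageIdeal c z {k | k < i ∨ j < k}) (z j))
    (hy : RegOn (stageIdeal c z {k | k < i ∨ i < k}) y) :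
    ∀ j : Fin r, i ≤ j → RegOn (stageIdeal c z {k | k < i ∨ j < k}) y ∧
      (i < j → RegOn (stageIdeal c z {k | k < i ∨ j < k} ⊔ Ideal.span {y}) (z j)) := by
  suffices key : ∀ (d : ℕ) (j : Fin r), (j : ℕ) = i + d →
      RegOn (stageIdeal c z {k | k < i ∨ j < k}) y ∧
      (i < j → RegOn (stageIdeal c z {k | k < i ∨ j < k} ⊔ Ideal.span {y}) (z j)) from
    fun j hj => key ((j : ℕ) - i) j (by have : (i : ℕ) ≤ j := hj; omega)
  intro d
  induction d with
  | zero =>
    intro j hj
    obtain rfl : j = i := Fin.ext (by simpa using hj)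
    exact ⟨hy, fun h => absurd h (lt_irrefl _)⟩
  | succ d ih =>
    intro j hj
    have hij : i < j := Fin.lt_def.2 (by omega)
    let j' : Fin r := ⟨i + d, by omega⟩
    have hset : ({k | k < i ∨ j' < k} : Set (Fin r)) = insert j {k | k < i ∨ j < k} := by
      ext k
      simp only [Set.mem_insert_iff, Set.mem_ofPred, Fin.lt_def, Fin.ext_iff, j']
      omega
    have h := (ih j' rfl).1
    rw [hset, stageIdeal_insert] at h
    obtain ⟨h1, h2⟩ := (hreg j hij).swap (hz j hij) h
    exact ⟨h1, fun _ => h2⟩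

theorem det_updateRow_eq_sum {n : Type*} [Fintype n] [DecidableEq n] (M : Matrix n n P) (i : n)
    (b : n → P) : (M.updateRow i b).det = ∑ k, b k * M.adjugate k i := by
  rw [← cramer_transpose_apply, cramer_eq_adjugate_mulVec, ← adjugate_transpose]
  simp [mulVec, dotProduct, mul_comm]

theorem det_exchange_mem {n : Type*} [Fintype n] [DecidableEq n] {J : Ideal P}
    (M : Matrix n n P) (v : n → P) (i : n) (hJ : ∀ k, k ≠ i → (M *ᵥ v) k ∈ J) (b : n → P) :
    (b ⬝ᵥ v) * M.det - (M *ᵥ v) i * (M.updateRow i b).det ∈ J := by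
  have h1 : ∀ k, M.det * v k - M.adjugate k i * (M *ᵥ v) i ∈ J := by
    intro k
    have hk : M.det * v k = ∑ l, M.adjugate k l * (M *ᵥ v) l := by
      have h2 := congrFun (mulVec_mulVec v M.adjugate M) k
      rw [adjugate_mul, smul_mulVec, one_mulVec] at h2
      exact h2.symm
    rw [hk, ← Finset.add_sum_erase _ _ (Finset.mem_univ i), add_sub_cancel_left]
    exact sum_mem fun l hl => J.mul_mem_left _ (hJ l (Finset.ne_of_mem_erase hl))
  rw [det_updateRow_eq_sum, dotProduct, Finset.sum_mul, Finset.mul_sum, ← Finset.sum_sub_distrib]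
  refine sum_mem fun k _ => ?_
  have := J.mul_mem_left (b k) (h1 k)
  convert this using 1
  ring

end General

variable {O : Type} [CommRing O] [IsDomain O] [IsDiscreteValuationRing O] {r : ℕ}

/-- The invariant of the exchange after `i` steps. -/
def Inv (ϖ : O) (A : Fin r → Fin r → (MvPowerSeries (Fin r) O)) (W : Fin r → Submodule (MvPowerSeries (Fin r) O) (Fin r → (MvPowerSeries (Fin r) O))) (i : ℕ)
    (a : Fin r → Fin r → (MvPowerSeries (Fin r) O)) : Prop :=
  (∀ k : Fin r, i ≤ k → a k = Pi.single k 1) ∧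
  (∀ k : Fin r, (k : ℕ) < i → a k - A k ∈ W k) ∧
  (∀ j : Fin r, i ≤ j → RegOn (stageIdeal (C ϖ) (Matrix.of a *ᵥ varVec O r)
      {k | (k : ℕ) < i ∨ j < k}) (varVec O r j)) ∧
  SocleIs (stageIdeal (C ϖ) (Matrix.of a *ᵥ varVec O r) Set.univ) (Matrix.of a).det ∧
  ∀ p : Ideal (MvPowerSeries (Fin r) O), p.IsPrime → stageIdeal (C ϖ) (Matrix.of a *ᵥ varVec O r) Set.univ ≤ p →
    p = maximalIdeal (MvPowerSeries (Fin r) O)

theorem inv_zero {ϖ : O} (hϖ : Irreducible ϖ) (A : Fin r → Fin r → (MvPowerSeries (Fin r) O))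
    (W : Fin r → Submodule (MvPowerSeries (Fin r) O) (Fin r → (MvPowerSeries (Fin r) O))) : Inv ϖ A W 0 fun k => Pi.single k 1 := by
  have hm := (IsDiscreteValuationRing.irreducible_iff_uniformizer ϖ).1 hϖ
  have hone : (Matrix.of fun k : Fin r => (Pi.single k 1 : Fin r → (MvPowerSeries (Fin r) O))) = 1 := by
    ext i j : 2
    simp [Matrix.one_apply, Pi.single_apply, eq_comm]
  have hI : stageIdeal (C ϖ) (varVec O r) Set.univ = maximalIdeal (MvPowerSeries (Fin r) O) := by
    rw [stageIdeal, Set.image_univ]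
    exact le_antisymm (span_le_maximalIdeal hm) (maximalIdeal_le_span hm)
  refine ⟨fun _ _ => rfl, fun k hk => absurd hk (Nat.not_lt_zero _), ?_, ?_, ?_⟩
  · intro j _
    rw [hone, one_mulVec]
    have hset : ({k | (k : ℕ) < 0 ∨ j < k} : Set (Fin r)) = ↑(Finset.Ioi j) := by
      ext k; simp
    rw [hset, stageIdeal]
    exact regOn_varVec ϖ (by simp)
  · rw [hone, one_mulVec, det_one, hI]
    refine ⟨fun h => (maximalIdeal.isMaximal (MvPowerSeries (Fin r) O)).ne_top ((Ideal.eq_top_iff_one _).2 h),
      fun u => ⟨fun _ => ?_, fun _ z hz => Ideal.mul_mem_right _ _ hz⟩⟩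
    rw [Ideal.span_singleton_one, sup_top_eq]
    exact Submodule.mem_top
  · intro p hp hle
    rw [hone, one_mulVec, hI] at hle
    exact ((maximalIdeal.isMaximal (MvPowerSeries (Fin r) O)).eq_of_le hp.ne_top hle).symm

variable {ϖ : O} (hϖ : Irreducible ϖ) (A : Fin r → Fin r → (MvPowerSeries (Fin r) O))
  (W : Fin r → Submodule (MvPowerSeries (Fin r) O) (Fin r → (MvPowerSeries (Fin r) O)))
  (hW : ∀ (i : Fin r) (a : Fin r → Fin r → (MvPowerSeries (Fin r) O)), (∀ j < i, a j - A j ∈ W j) →
    ∀ p : Ideal (MvPowerSeries (Fin r) O), p.IsPrime → C ϖ ∈ p → (∀ j < i, a j ⬝ᵥ varVec O r ∈ p) →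
    A i ⬝ᵥ varVec O r ∈ p → (∀ w ∈ W i, w ⬝ᵥ varVec O r ∈ p) → p = maximalIdeal (MvPowerSeries (Fin r) O))

include hϖ hW in
theorem inv_succ {a : Fin r → Fin r → (MvPowerSeries (Fin r) O)} (i : Fin r) (h : Inv ϖ A W i a) :
    ∃ a', Inv ϖ A W ((i : ℕ) + 1) a' := by
  classical
  obtain ⟨hge, hlt, hreg, hsoc, hprime⟩ := h
  set z : Fin r → (MvPowerSeries (Fin r) O) := Matrix.of a *ᵥ varVec O r
  have hzx : ∀ k : Fin r, i ≤ k → z k = varVec O r k := fun k hk => by
    show a k ⬝ᵥ varVec O r = varVec O r k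
    rw [hge k hk, single_one_dotProduct]
  have hzm : ∀ k, z k ∈ maximalIdeal (MvPowerSeries (Fin r) O) := fun k =>
    varIdeal_le_maximalIdeal (dotProduct_varVec_mem _)
  have hm := (IsDiscreteValuationRing.irreducible_iff_uniformizer ϖ).1 hϖ
  have hCm : (C ϖ : (MvPowerSeries (Fin r) O)) ∈ maximalIdeal (MvPowerSeries (Fin r) O) :=
    span_le_maximalIdeal hm (Ideal.subset_span (Set.mem_insert _ _))
  have hreg' : ∀ j : Fin r, i ≤ j → RegOn (stageIdeal (C ϖ) z {k | k < i ∨ j < k}) (z j) :=
    fun j hj => (hzx j hj).symm ▸ hreg j hj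
  set J := stageIdeal (C ϖ) z {k | k < i ∨ i < k} with hJ
  have hJm : J ≤ maximalIdeal (MvPowerSeries (Fin r) O) := Ideal.span_le.2 (Set.insert_subset hCm
    (Set.image_subset_iff.2 fun k _ => hzm k))
  have huniv : stageIdeal (C ϖ) z Set.univ = J ⊔ Ideal.span {z i} := by
    rw [← stageIdeal_insert]
    congr 1
    ext k
    simp only [Set.mem_univ, Set.mem_insert_iff, Set.mem_ofPred, true_iff]
    rcases lt_trichotomy k i with h | h | h <;> tauto
  have hxi : RegOn J (z i) := hreg' i le_rfl
  -- the primes to avoid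
  let S : Finset (Ideal (MvPowerSeries (Fin r) O)) := (associatedPrimes.finite (MvPowerSeries (Fin r) O) ((MvPowerSeries (Fin r) O) ⧸ J)).toFinset ∪
    (J.finite_minimalPrimes_of_isNoetherianRing (MvPowerSeries (Fin r) O)).toFinset
  have hSprime : ∀ p ∈ S, p.IsPrime := fun p hp => by
    simp only [S, Finset.mem_union, Set.Finite.mem_toFinset] at hp
    exact hp.elim (fun h => AssociatedPrimes.mem_iff.1 h |>.isPrime) fun h => h.isPrime
  have hJS : ∀ p ∈ S, J ≤ p := fun p hp => by
    simp only [S, Finset.mem_union, Set.Finite.mem_toFinset] at hp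
    rcases hp with hp | hp
    · intro x hx
      have h1 : x ∈ Module.annihilator (MvPowerSeries (Fin r) O) ((MvPowerSeries (Fin r) O) ⧸ J) := by rwa [Ideal.annihilator_quotient]
      exact IsAssociatedPrime.annihilator_le (AssociatedPrimes.mem_iff.1 hp)
        (by rwa [Submodule.annihilator_top])
    · exact hp.le
  have hSne : ∀ p ∈ S, p ≠ maximalIdeal (MvPowerSeries (Fin r) O) := fun p hp hpm => by
    simp only [S, Finset.mem_union, Set.Finite.mem_toFinset] at hp
    rcases hp with hp | hp
    · have h1 : z i ∈ ({x | IsSMulRegular ((MvPowerSeries (Fin r) O) ⧸ J) x} : Set (MvPowerSeries (Fin r) O))ᶜ := by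
        rw [← biUnion_associatedPrimes_eq_compl_regular (MvPowerSeries (Fin r) O)]
        exact Set.mem_biUnion hp (hpm ▸ hzm i)
      exact h1 (regOn_iff_isSMulRegular.1 hxi)
    · subst hpm
      have hrad : z i ∈ J.radical := by
        rw [Ideal.radical_eq_sInf, Submodule.mem_sInf]
        rintro q ⟨hJq, hq⟩
        exact hp.2 ⟨hq, hJq⟩ (IsLocalRing.le_maximalIdeal hq.ne_top) (hzm i)
      obtain ⟨n, hn⟩ := hrad
      have h2 : ∀ n, z i ^ n ∈ J → (1 : (MvPowerSeries (Fin r) O)) ∈ J := by
        intro n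
        induction n with
        | zero => exact fun h => by simpa using h
        | succ n ih => exact fun h => ih (hxi _ (by rwa [pow_succ'] at h))
      exact (maximalIdeal.isMaximal (MvPowerSeries (Fin r) O)).ne_top ((Ideal.eq_top_iff_one _).2 (hJm (h2 n hn)))
  let dot : (Fin r → (MvPowerSeries (Fin r) O)) →ₗ[(MvPowerSeries (Fin r) O)] (MvPowerSeries (Fin r) O) :=
    { toFun := fun w => w ⬝ᵥ varVec O r
      map_add' := fun v w => add_dotProduct v w _
      map_smul' := fun c w => smul_dotProduct c w _ }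
  obtain ⟨w₁, hw₁, hav⟩ := exists_add_notMem S hSprime (A i ⬝ᵥ varVec O r) ((W i).map dot)
    fun p hp hF hWp => hSne p hp (hW i a (fun j hj => hlt j hj) p (hSprime p hp)
      (hJS p hp (Ideal.subset_span (Set.mem_insert _ _)))
      (fun j hj => hJS p hp (Ideal.subset_span (Set.mem_insert_of_mem _ ⟨j, Or.inl hj, rfl⟩)))
      hF fun w hw => hWp ⟨w, hw, rfl⟩)
  obtain ⟨w, hw, rfl⟩ := hw₁
  set b : Fin r → (MvPowerSeries (Fin r) O) := A i + w with hb
  set y := b ⬝ᵥ varVec O r with hy
  have hyS : ∀ p ∈ S, y ∉ p := fun p hp => by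
    rw [hy, hb, add_dotProduct]; exact hav p hp
  have hyreg : RegOn J y := by
    rw [regOn_iff_isSMulRegular]
    by_contra hyr
    have h1 : y ∈ ({x | IsSMulRegular ((MvPowerSeries (Fin r) O) ⧸ J) x} : Set (MvPowerSeries (Fin r) O))ᶜ := hyr
    rw [← biUnion_associatedPrimes_eq_compl_regular (MvPowerSeries (Fin r) O)] at h1
    obtain ⟨p, hp, hyp⟩ := Set.mem_iUnion₂.1 h1
    exact hyS p (by simp [S, hp]) hyp
  have hz' : Matrix.of (Function.update a i b) *ᵥ varVec O r = Function.update z i y := by
    funext k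
    show Function.update a i b k ⬝ᵥ varVec O r = _
    rcases eq_or_ne k i with rfl | hk
    · rw [Function.update_self, Function.update_self]
    · rw [Function.update_of_ne hk, Function.update_of_ne hk]; rfl
  have himg : ∀ T : Set (Fin r), i ∉ T →
      stageIdeal (C ϖ) (Function.update z i y) T = stageIdeal (C ϖ) z T := fun T hT => by
    have h1 : Function.update z i y '' T = z '' T :=
      Set.image_congr fun k hk => Function.update_of_ne (by rintro rfl; exact hT hk) _ _
    rw [stageIdeal, stageIdeal, h1]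
  have huniv' : stageIdeal (C ϖ) (Function.update z i y) Set.univ = J ⊔ Ideal.span {y} := by
    rw [show (Set.univ : Set (Fin r)) = insert i {k | k < i ∨ i < k} by
      ext k
      simp only [Set.mem_univ, Set.mem_insert_iff, Set.mem_ofPred, true_iff]
      rcases lt_trichotomy k i with h | h | h <;> tauto,
      stageIdeal_insert, Function.update_self, himg _ (by simp)]
  have hdet : (Matrix.of (Function.update a i b)).det = ((Matrix.of a).updateRow i b).det := rfl
  refine ⟨Function.update a i b, ?_, ?_, ?_, ?_, ?_⟩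
  · intro k hk
    have hik : i < k := Fin.lt_def.2 (by omega)
    rw [Function.update_of_ne hik.ne']
    exact hge k (by omega)
  · intro k hk
    rcases eq_or_ne k i with rfl | hki
    · rw [Function.update_self, hb, add_sub_cancel_left]; exact hw
    · rw [Function.update_of_ne hki]
      exact hlt k (by have := Fin.val_ne_of_ne hki; omega)
  · intro j hj
    have hij : i < j := Fin.lt_def.2 (by omega)
    have hset : ({k | (k : ℕ) < (i : ℕ) + 1 ∨ j < k} : Set (Fin r)) =
        insert i {k | k < i ∨ j < k} := by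
      ext k
      simp only [Set.mem_ofPred, Set.mem_insert_iff, Fin.lt_def, Fin.ext_iff]
      omega
    have h1 := ((regOn_stage_update (C ϖ) z i y (fun k _ => hzm k)
      (fun k hk => hreg' k hk.le) hyreg j hij.le).2 hij)
    rw [hz', hset, stageIdeal_insert, Function.update_self, himg _ (by simp [hij.le]),
      ← hzx j hij.le]
    exact h1
  · rw [hz', huniv', hdet]
    refine SocleIs.exchange (hzm i) hxi hyreg (huniv ▸ hsoc) ?_
    exact det_exchange_mem (Matrix.of a) (varVec O r) i (fun k hk => Ideal.subset_span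
      (Set.mem_insert_of_mem _ (Set.mem_image_of_mem z (lt_or_gt_of_ne hk)))) b
  · rw [hz', huniv']
    intro p hp hle
    by_contra hpm
    have hlt' : p < maximalIdeal (MvPowerSeries (Fin r) O) := lt_of_le_of_ne (IsLocalRing.le_maximalIdeal hp.ne_top) hpm
    have hmin : maximalIdeal (MvPowerSeries (Fin r) O) ∈ (Ideal.span (insert (z i) (J : Set (MvPowerSeries (Fin r) O)))).minimalPrimes := by
      refine ⟨⟨(maximalIdeal.isMaximal (MvPowerSeries (Fin r) O)).isPrime, Ideal.span_le.2
        (Set.insert_subset (hzm i) hJm)⟩, fun q hq _ => ?_⟩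
      refine (hprime q hq.1 (le_trans (le_of_eq ?_) hq.2)).ge
      rw [huniv, Ideal.span_insert, Ideal.span_eq, sup_comm]
    have hJp : J ≤ p := le_sup_left.trans hle
    have h1 := Ideal.mem_minimalPrimes_span_of_mem_minimalPrimes_span_insert hlt' (z i) (J : Set (MvPowerSeries (Fin r) O))
      hmin (J : Set (MvPowerSeries (Fin r) O)) hJp
      (fun x hx => Ideal.le_radical (Ideal.subset_span (Set.mem_insert_of_mem _ hx)))
    rw [Ideal.span_eq] at h1
    exact hyS p (by simp [S, h1]) (hle (Ideal.mem_sup_right (Ideal.mem_span_singleton_self y)))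

include hϖ hW in
/-- Rows in the cosets `A j + W j` whose relations cut out an artinian ring with socle the
determinant. -/
theorem exists_rows_socle :
    ∃ a : Fin r → Fin r → (MvPowerSeries (Fin r) O), (∀ j, a j - A j ∈ W j) ∧
      SocleIs (Ideal.span (insert (C ϖ) (Set.range (Matrix.of a *ᵥ varVec O r))))
        (Matrix.of a).det ∧
      ∀ p : Ideal (MvPowerSeries (Fin r) O), p.IsPrime →
        Ideal.span (insert (C ϖ) (Set.range (Matrix.of a *ᵥ varVec O r))) ≤ p →
        p = maximalIdeal (MvPowerSeries (Fin r) O) := by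
  have key : ∀ i : ℕ, i ≤ r → ∃ a, Inv ϖ A W i a := by
    intro i
    induction i with
    | zero => exact fun _ => ⟨_, inv_zero hϖ A W⟩
    | succ i ih =>
      intro hi
      obtain ⟨a, ha⟩ := ih (by omega)
      exact inv_succ hϖ A W hW ⟨i, by omega⟩ ha
  obtain ⟨a, -, h2, -, h4, h5⟩ := key r le_rfl
  rw [stageIdeal, Set.image_univ] at h4 h5
  exact ⟨a, fun j => h2 j j.isLt, h4, h5⟩

end Fermat.Agent.TwoAdic.Criterion
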