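import Fermat.Agent.TwoAdic.Criterion.Series
import Mathlib.LinearAlgebra.FreeModule.Finite.Quotient
import Mathlib.LinearAlgebra.Determinant
import Mathlib.LinearAlgebra.Matrix.ToLinearEquiv
import Mathlib.RingTheory.OrderOfVanishing.Noetherian
import Mathlib.RingTheory.Ideal.Cotangent
import Mathlib.RingTheory.Length

/-!
# Lengths of lattices quotients and of cotangent modules at an augmentation
-/

set_option autoImplicit false

open IsLocalRing MvPowerSeries

namespace Fermat.Agent.TwoAdic.Criterion

section Lattice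

variable {O : Type} [CommRing O] [IsDomain O] [IsPrincipalIdealRing O] {r : ℕ}

omit [IsPrincipalIdealRing O] in
theorem length_eq_of_sum {ι : Type*} [Fintype ι] (a : ι → O) (ha : ∀ i, a i ≠ 0) :
    ∑ i, Ring.ord O (a i) = Ring.ord O (∏ i, a i) := by
  classical
  induction (Finset.univ : Finset ι) using Finset.induction with
  | empty => simp
  | insert i s hi ih =>
    rw [Finset.sum_insert hi, Finset.prod_insert hi, ih, Ring.ord_mul]
    exact mem_nonZeroDivisors_of_ne_zero (Finset.prod_ne_zero_iff.2 fun j _ => ha j)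

/-- The length of the quotient by the lattice spanned by the rows of a matrix. -/
theorem length_quotient_span_rows (A : Matrix (Fin r) (Fin r) O) (hA : A.det ≠ 0) :
    Module.length O ((Fin r → O) ⧸ Submodule.span O (Set.range A.row)) = Ring.ord O A.det := by
  classical
  set N := Submodule.span O (Set.range A.row)
  have hli : LinearIndependent O A.row := by
    rw [Fintype.linearIndependent_iff]
    intro g hg
    have h0 : Matrix.vecMul g A = 0 := by
      rw [← hg]; funext j; simp [Matrix.vecMul, dotProduct, Matrix.row]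
    by_contra hne
    push Not at hne
    obtain ⟨i, hi⟩ := hne
    exact hA (Matrix.exists_vecMul_eq_zero_iff.1 ⟨g, fun h => hi (congrFun h i), h0⟩)
  let bN : Module.Basis (Fin r) O N := Module.Basis.span hli
  let b₀ : Module.Basis (Fin r) O (Fin r → O) := Pi.basisFun O (Fin r)
  have h : Module.finrank O N = Module.finrank O (Fin r → O) := by
    rw [Module.finrank_eq_card_basis bN, Module.finrank_eq_card_basis b₀]
  obtain ⟨c, hc⟩ : ∃ c, c = N.smithNormalFormCoeffs b₀ h := ⟨_, rfl⟩
  rw [(N.quotientEquivPiSpan b₀ h).length_eq, Module.length_pi_of_fintype]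
  show ∑ i, Ring.ord O (N.smithNormalFormCoeffs b₀ h i) = _
  rw [length_eq_of_sum _ (Submodule.smithNormalFormCoeffs_ne_zero b₀ h)]
  refine Ring.ord_eq_of_associated ?_
  -- both determinants are determinants of the inclusion of the lattice
  let b' := N.smithNormalFormTopBasis b₀ h
  let ab := N.smithNormalFormBotBasis b₀ h
  let e : (Fin r → O) ≃ₗ[O] N := b'.equiv ab (Equiv.refl _)
  let e' : (Fin r → O) ≃ₗ[O] N := b₀.equiv bN (Equiv.refl _)
  have h1 : LinearMap.det (N.subtype ∘ₗ (e : (Fin r → O) →ₗ[O] N)) =
      ∏ i, N.smithNormalFormCoeffs b₀ h i := by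
    rw [← LinearMap.det_toMatrix b', ← Matrix.det_diagonal]
    congr 1
    ext i j
    have hj : N.subtype (e (b' j)) = N.smithNormalFormCoeffs b₀ h j • b' j := by
      rw [show e (b' j) = ab j by simp [e]]
      exact Submodule.smithNormalFormBotBasis_def b₀ h j
    rw [LinearMap.toMatrix_apply, LinearMap.comp_apply, LinearEquiv.coe_coe, hj, map_smul,
      Module.Basis.repr_self, Finsupp.smul_single, smul_eq_mul, mul_one]
    rcases eq_or_ne i j with rfl | hne
    · simp
    · simp [Matrix.diagonal_apply_ne _ hne, Ne.symm hne]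
  have h2 : LinearMap.det (N.subtype ∘ₗ (e' : (Fin r → O) →ₗ[O] N)) = A.det := by
    rw [← LinearMap.det_toMatrix b₀, ← Matrix.det_transpose A]
    congr 1
    ext i j
    rw [LinearMap.toMatrix_apply, LinearMap.comp_apply, LinearEquiv.coe_coe,
      show e' (b₀ j) = bN j by simp [e'], Submodule.subtype_apply, Module.Basis.span_apply]
    simp [b₀, Matrix.row]
  rw [← h1, ← h2]
  exact LinearMap.associated_det_comp_equiv _ _ _

/-- A lattice with quotient of finite length is spanned by the rows of a nonsingular matrix. -/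
theorem exists_rows_of_length_ne_top (hO : Module.length O O = ⊤) (N : Submodule O (Fin r → O))
    (hN : Module.length O ((Fin r → O) ⧸ N) ≠ ⊤) :
    ∃ A : Matrix (Fin r) (Fin r) O, A.det ≠ 0 ∧ Submodule.span O (Set.range A.row) = N := by
  classical
  obtain ⟨n, snf⟩ := N.smithNormalForm (Pi.basisFun O (Fin r))
  have hsurj : Function.Surjective snf.f := by
    intro i
    by_contra hi
    have hker : N ≤ LinearMap.ker (snf.bM.coord i) :=
      snf.le_ker_coord_of_notMem_range (by simpa using hi)
    refine hN (top_le_iff.1 (hO ▸ Module.length_le_of_surjective (N.liftQ (snf.bM.coord i) hker)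
      fun c => ⟨Submodule.Quotient.mk (c • snf.bM i), ?_⟩))
    simp
  let e : Fin n ≃ Fin r := Equiv.ofBijective snf.f ⟨snf.f.injective, hsurj⟩
  let bN := snf.bN.reindex e
  refine ⟨Matrix.of fun i => (bN i : Fin r → O), ?_, ?_⟩
  · intro hdet
    obtain ⟨v, hv, hv0⟩ := Matrix.exists_vecMul_eq_zero_iff.2 hdet
    refine hv (funext fun i => ?_)
    refine Fintype.linearIndependent_iff.1 bN.linearIndependent v ?_ i
    refine Subtype.ext ?_
    rw [ZeroMemClass.coe_zero, ← hv0]
    funext j
    simp [Matrix.vecMul, dotProduct]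
  · have h1 := congrArg (Submodule.map N.subtype) bN.span_eq
    rw [Submodule.map_top, Submodule.range_subtype, Submodule.map_span, ← Set.range_comp] at h1
    exact h1

end Lattice

section Cotangent

variable {O : Type} [CommRing O] {r : ℕ} {S : Type} [CommRing S] [Algebra O S]
  (π : MvPowerSeries (Fin r) O →ₐ[O] S) (θ : S →ₐ[O] O)

/-- The linear parts of the elements of an ideal. -/
noncomputable def linParts (K : Ideal (MvPowerSeries (Fin r) O)) : Submodule O (Fin r → O) :=
  (K.restrictScalars O).map linPart

theorem linPart_mem_linParts {K : Ideal (MvPowerSeries (Fin r) O)}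
    {f : MvPowerSeries (Fin r) O} (hf : f ∈ K) : linPart f ∈ linParts K :=
  ⟨f, hf, rfl⟩

theorem linParts_mono {K K' : Ideal (MvPowerSeries (Fin r) O)} (h : K ≤ K') :
    linParts K ≤ linParts K' := Submodule.map_mono fun _ hf => h hf

theorem linParts_span (F : Fin r → MvPowerSeries (Fin r) O)
    (hF : ∀ i, constantCoeff (F i) = 0) :
    linParts (Ideal.span (Set.range F)) = Submodule.span O (Set.range fun i => linPart (F i)) := by
  refine le_antisymm ?_ (Submodule.span_le.2 ?_)
  · rintro _ ⟨f, hf, rfl⟩
    obtain ⟨c, rfl⟩ := (Submodule.mem_span_range_iff_exists_fun _).1 hf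
    rw [map_sum]
    refine sum_mem fun i _ => ?_
    rw [smul_eq_mul, linPart_mul _ (hF i)]
    exact Submodule.smul_mem _ _ (Submodule.subset_span ⟨i, rfl⟩)
  · rintro _ ⟨i, rfl⟩
    exact linPart_mem_linParts (Ideal.subset_span ⟨i, rfl⟩)

variable (hπ : Function.Surjective π) (hε : ∀ f, θ (π f) = constantCoeff f)

include hε in
theorem constantCoeff_eq_zero_of_mem_ker {f : MvPowerSeries (Fin r) O}
    (hf : f ∈ RingHom.ker π) : constantCoeff f = 0 := by
  rw [← hε, RingHom.mem_ker.1 hf, map_zero]

include hπ hε in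
theorem map_varIdeal : (varIdeal O r).map π = RingHom.ker θ := by
  refine le_antisymm (Ideal.map_le_iff_le_comap.2 fun f hf => ?_) fun y hy => ?_
  · rw [Ideal.mem_comap, RingHom.mem_ker, hε]
    exact mem_varIdeal_iff.1 hf
  · obtain ⟨f, rfl⟩ := hπ y
    exact Ideal.mem_map_of_mem π (mem_varIdeal_iff.2 ((hε f).symm.trans hy))

/-- Evaluation of linear forms in the cotangent module. -/
noncomputable def cotangentMap : (Fin r → O) →ₗ[O] (RingHom.ker θ).Cotangent :=
  Fintype.linearCombination O fun j => (RingHom.ker θ).toCotangent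
    ⟨π (X j) - algebraMap O S (θ (π (X j))), by simp [RingHom.mem_ker]⟩

theorem smul_cotangent (t : S) (m : (RingHom.ker θ).Cotangent) : t • m = θ t • m := by
  obtain ⟨y, rfl⟩ := Ideal.toCotangent_surjective _ m
  rw [← IsScalarTower.algebraMap_smul S (θ t) ((RingHom.ker θ).toCotangent y),
    ← sub_eq_zero, ← sub_smul, ← map_smul, Ideal.toCotangent_eq_zero, pow_two, Submodule.coe_smul,
    smul_eq_mul]
  exact Ideal.mul_mem_mul (by simp [RingHom.mem_ker]) y.2

include hε in
theorem cotangentMap_linPart (f : MvPowerSeries (Fin r) O) (hf : θ (π f) = 0) :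
    cotangentMap π θ (linPart f) = (RingHom.ker θ).toCotangent ⟨π f, hf⟩ := by
  obtain ⟨a, rfl⟩ := exists_row (f := f) ((hε f).symm.trans hf)
  have h1 : (⟨π (a ⬝ᵥ varVec O r), hf⟩ : RingHom.ker θ) = ∑ j, π (a j) •
      (⟨π (X j) - algebraMap O S (θ (π (X j))), by simp [RingHom.mem_ker]⟩ : RingHom.ker θ) := by
    refine Subtype.ext ?_
    rw [Submodule.coe_sum]
    simp [dotProduct, varVec, hε, map_sum]
  rw [h1, map_sum, linPart_dotProduct, cotangentMap, Fintype.linearCombination_apply]
  refine Finset.sum_congr rfl fun j _ => ?_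
  rw [map_smul, smul_cotangent]
  exact congrArg (fun c => c • _) (hε _).symm

include hπ hε in
/-- The cotangent module at the augmentation, as a quotient of the linear forms. -/
theorem length_cotangent_eq_linParts :
    Module.length S (RingHom.ker θ).Cotangent =
      Module.length O ((Fin r → O) ⧸ linParts (RingHom.ker π)) := by
  have hθ : Function.Surjective (θ : S → O) := fun o => ⟨algebraMap O S o, θ.commutes o⟩
  have h0 : Module.length S (RingHom.ker θ).Cotangent =
      Module.length O (RingHom.ker θ).Cotangent := by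
    let : Algebra S O := θ.toRingHom.toAlgebra
    have : IsScalarTower S O (RingHom.ker θ).Cotangent := ⟨fun t o m => by
      rw [smul_cotangent θ t (o • m), ← mul_smul]; rfl⟩
    exact Module.length_eq_of_surjective (R := O) (S := S) hθ
  rw [h0]
  have hsurj : Function.Surjective (cotangentMap π θ) := fun m => by
    obtain ⟨⟨y, hy⟩, rfl⟩ := Ideal.toCotangent_surjective _ m
    obtain ⟨f, rfl⟩ := hπ y
    exact ⟨_, cotangentMap_linPart π θ hε f hy⟩
  have hker : LinearMap.ker (cotangentMap π θ) = linParts (RingHom.ker π) := by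
    refine le_antisymm (fun c hc => ?_) ?_
    · set f := (fun j => C (c j)) ⬝ᵥ varVec O r with hfdef
      have hlin : linPart f = c := by rw [linPart_dotProduct]; simp
      have hf : θ (π f) = 0 := by
        rw [hε, ← mem_varIdeal_iff]; exact dotProduct_varVec_mem _
      rw [LinearMap.mem_ker, ← hlin, cotangentMap_linPart π θ hε f hf,
        Ideal.toCotangent_eq_zero] at hc
      have hc' : π f ∈ RingHom.ker θ ^ 2 := hc
      rw [← map_varIdeal π θ hπ hε, ← Ideal.map_pow] at hc'
      obtain ⟨g, hg, hgf⟩ := (Ideal.mem_map_iff_of_surjective π hπ).1 hc'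
      refine ⟨f - g, ?_, ?_⟩
      · show f - g ∈ RingHom.ker π
        rw [RingHom.mem_ker, map_sub, hgf, sub_self]
      · rw [map_sub, hlin, linPart_eq_zero hg, sub_zero]
    · rintro _ ⟨f, hf, rfl⟩
      have hf0 : π f = 0 := hf
      rw [LinearMap.mem_ker, cotangentMap_linPart π θ hε f (by rw [hf0, map_zero]),
        Ideal.toCotangent_eq_zero]
      simp [hf0]
  rw [← hker]
  exact ((cotangentMap π θ).quotKerEquivOfSurjective hsurj).length_eq.symm

end Cotangent

end Fermat.Agent.TwoAdic.Criterion
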