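import Mathlib.RingTheory.Ideal.AssociatedPrime.Basic
import Mathlib.RingTheory.Regular.IsSMulRegular
import Mathlib.RingTheory.Filtration
import Mathlib.RingTheory.LocalRing.MaximalIdeal.Basic
import Mathlib.RingTheory.Ideal.Quotient.Basic

/-!
# Regular elements and socles modulo an ideal

Elementary statements used to control the socle of an artinian complete intersection.
-/

set_option autoImplicit false

open IsLocalRing

namespace Fermat.Agent.TwoAdic.Criterion

variable {P : Type*} [CommRing P]

/-- `x` is a nonzerodivisor modulo `I`. -/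
def RegOn (I : Ideal P) (x : P) : Prop := ∀ u, x * u ∈ I → u ∈ I

theorem regOn_iff_isSMulRegular {I : Ideal P} {x : P} :
    RegOn I x ↔ IsSMulRegular (P ⧸ I) x := by
  rw [isSMulRegular_iff_right_eq_zero_of_smul]
  constructor
  · intro h q hq
    obtain ⟨u, rfl⟩ := Ideal.Quotient.mk_surjective q
    rw [Algebra.smul_def, Ideal.Quotient.algebraMap_eq, ← map_mul,
      Ideal.Quotient.eq_zero_iff_mem] at hq
    exact Ideal.Quotient.eq_zero_iff_mem.2 (h u hq)
  · intro h u hu
    refine Ideal.Quotient.eq_zero_iff_mem.1 (h (Ideal.Quotient.mk I u) ?_)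
    rwa [Algebra.smul_def, Ideal.Quotient.algebraMap_eq, ← map_mul,
      Ideal.Quotient.eq_zero_iff_mem]

/-- The socle modulo `I` is spanned by `D`, which is not in `I`. -/
def SocleIs [IsLocalRing P] (I : Ideal P) (D : P) : Prop :=
  D ∉ I ∧ ∀ u, (∀ z ∈ maximalIdeal P, z * u ∈ I) ↔ u ∈ I ⊔ Ideal.span {D}

theorem mem_sup_span_singleton {I : Ideal P} {x u : P} :
    u ∈ I ⊔ Ideal.span {x} ↔ ∃ s, u - x * s ∈ I := by
  constructor
  · rintro h
    obtain ⟨i, hi, j, hj, rfl⟩ := Submodule.mem_sup.1 h
    obtain ⟨s, rfl⟩ := Ideal.mem_span_singleton.1 hj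
    exact ⟨s, by simpa using hi⟩
  · rintro ⟨s, hs⟩
    exact Submodule.mem_sup.2 ⟨_, hs, x * s, Ideal.mem_span_singleton.2 ⟨s, rfl⟩,
      sub_add_cancel _ _⟩

variable [IsLocalRing P]

theorem RegOn.swap [IsNoetherianRing P] {I : Ideal P} {x y : P} (hxm : x ∈ maximalIdeal P)
    (hx : RegOn I x) (hy : RegOn (I ⊔ Ideal.span {x}) y) :
    RegOn I y ∧ RegOn (I ⊔ Ideal.span {y}) x := by
  refine ⟨fun u hu => ?_, fun u hu => ?_⟩
  · have key : ∀ n : ℕ, ∃ s, u - x ^ n * s ∈ I ∧ y * s ∈ I := by
      intro n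
      induction n with
      | zero => exact ⟨u, by simp, hu⟩
      | succ n ih =>
        obtain ⟨s, hs, hys⟩ := ih
        obtain ⟨t, ht⟩ := mem_sup_span_singleton.1 (hy s (Ideal.mem_sup_left hys))
        refine ⟨t, ?_, hx _ ?_⟩
        · have := add_mem hs (I.mul_mem_left (x ^ n) ht)
          convert this using 1
          ring
        · have := sub_mem hys (I.mul_mem_left y ht)
          convert this using 1
          ring
    have hJ : IsLocalRing.maximalIdeal P ≠ ⊤ := (maximalIdeal.isMaximal P).ne_top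
    have h0 := Ideal.iInf_pow_smul_eq_bot_of_isLocalRing (R := P) (M := P ⧸ I)
      (maximalIdeal P) hJ
    refine Ideal.Quotient.eq_zero_iff_mem.1 ?_
    rw [← Submodule.mem_bot P, ← h0, Submodule.mem_iInf]
    intro n
    obtain ⟨s, hs, -⟩ := key n
    rw [show Ideal.Quotient.mk I u = x ^ n • Ideal.Quotient.mk I s by
      rw [Algebra.smul_def, Ideal.Quotient.algebraMap_eq, ← map_mul, Ideal.Quotient.eq]
      exact hs]
    exact Submodule.smul_mem_smul (Ideal.pow_mem_pow hxm n) Submodule.mem_top
  · obtain ⟨t, ht⟩ := mem_sup_span_singleton.1 hu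
    have h1 : y * t ∈ I ⊔ Ideal.span {x} := mem_sup_span_singleton.2 ⟨u, by
      have := I.neg_mem_iff.2 ht
      convert this using 1
      ring⟩
    obtain ⟨s, hs⟩ := mem_sup_span_singleton.1 (hy t h1)
    refine mem_sup_span_singleton.2 ⟨s, hx _ ?_⟩
    have := add_mem ht (I.mul_mem_left y hs)
    convert this using 1
    ring

/-- Changing the last element of a regular sequence. -/
theorem SocleIs.exchange {I : Ideal P} {x y D D' : P} (hxm : x ∈ maximalIdeal P)
    (hx : RegOn I x) (hy : RegOn I y) (h : SocleIs (I ⊔ Ideal.span {x}) D)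
    (hDD' : y * D - x * D' ∈ I) : SocleIs (I ⊔ Ideal.span {y}) D' := by
  constructor
  · intro hD'
    obtain ⟨w, hw⟩ := mem_sup_span_singleton.1 hD'
    refine h.1 (mem_sup_span_singleton.2 ⟨w, hy _ ?_⟩)
    have := add_mem hDD' (I.mul_mem_left x hw)
    convert this using 1
    ring
  · intro u
    constructor
    · intro hu
      obtain ⟨t, ht⟩ := mem_sup_span_singleton.1 (hu x hxm)
      have h1 : ∀ z ∈ maximalIdeal P, z * t ∈ I ⊔ Ideal.span {x} := by
        intro z hz
        obtain ⟨s, hs⟩ := mem_sup_span_singleton.1 (hu z hz)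
        refine mem_sup_span_singleton.2 ⟨s, hy _ ?_⟩
        have := sub_mem (I.mul_mem_left x hs) (I.mul_mem_left z ht)
        convert this using 1
        ring
      obtain ⟨i, hi, j, hj, hij⟩ := Submodule.mem_sup.1 ((h.2 t).1 h1)
      obtain ⟨s, hs⟩ := mem_sup_span_singleton.1 hi
      obtain ⟨c, rfl⟩ := Ideal.mem_span_singleton.1 hj
      have h2 : u - y * s - D' * c ∈ I := by
        refine hx _ ?_
        have := add_mem (add_mem ht (I.mul_mem_left c hDD')) (I.mul_mem_left y hs)
        convert this using 1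
        rw [← hij]
        ring
      refine Submodule.mem_sup.2 ⟨u - D' * c, mem_sup_span_singleton.2 ⟨s, ?_⟩, D' * c,
        Ideal.mem_span_singleton.2 ⟨c, rfl⟩, sub_add_cancel _ _⟩
      convert h2 using 1
      ring
    · intro hu z hz
      obtain ⟨i, hi, j, hj, rfl⟩ := Submodule.mem_sup.1 hu
      obtain ⟨c, rfl⟩ := Ideal.mem_span_singleton.1 hj
      rw [mul_add]
      refine add_mem (Ideal.mul_mem_left _ z hi) ?_
      rw [← mul_assoc]
      refine Ideal.mul_mem_right _ _ ?_
      obtain ⟨w, hw⟩ := mem_sup_span_singleton.1 ((h.2 D).2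
        (Ideal.mem_sup_right (Ideal.mem_span_singleton_self D)) z hz)
      refine mem_sup_span_singleton.2 ⟨w, hx _ ?_⟩
      have := sub_mem (I.mul_mem_left y hw) (I.mul_mem_left z hDD')
      convert this using 1
      ring

/-- An ideal strictly above an `𝔪`-primary ideal meets the socle. -/
theorem SocleIs.mem_of_lt {I J : Ideal P} {D : P} (h : SocleIs I D) {n : ℕ}
    (hn : maximalIdeal P ^ n ≤ I) (hIJ : I < J) : D ∈ J := by
  obtain ⟨u, huJ, huI⟩ := SetLike.exists_of_lt hIJ
  have key : ∀ (n : ℕ) (u : P), (∀ z ∈ maximalIdeal P ^ n, z * u ∈ I) → u ∈ J → u ∉ I → D ∈ J := by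
    intro n
    induction n with
    | zero => intro u hu _ hu'; exact absurd (by simpa using hu 1 (by simp)) hu'
    | succ n ih =>
      intro u hu hJ hI
      by_cases hm : ∀ z ∈ maximalIdeal P, z * u ∈ I
      · obtain ⟨c, hc⟩ := mem_sup_span_singleton.1 ((h.2 u).1 hm)
        have hcu : IsUnit c := by
          by_contra hcn
          refine hI ?_
          have h1 := (h.2 D).2 (Ideal.mem_sup_right (Ideal.mem_span_singleton_self D)) c hcn
          have := add_mem hc h1
          convert this using 1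
          ring
        rw [← Ideal.mul_unit_mem_iff_mem J hcu]
        have := sub_mem hJ (hIJ.le hc)
        convert this using 1
        ring
      · push Not at hm
        obtain ⟨z, hz, hzu⟩ := hm
        refine ih (z * u) (fun w hw => ?_) (J.mul_mem_left z hJ) hzu
        rw [← mul_assoc]
        exact hu _ (pow_succ (maximalIdeal P) n ▸ Ideal.mul_mem_mul hw hz)
  exact key n u (fun z hz => I.mul_mem_right u (hn hz)) huJ huI

omit [IsLocalRing P] in
/-- Prime avoidance for a coset of an ideal. -/
theorem exists_add_notMem (S : Finset (Ideal P)) (hS : ∀ p ∈ S, p.IsPrime) (f : P) (W : Ideal P)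
    (h : ∀ p ∈ S, f ∈ p → ¬W ≤ p) : ∃ w ∈ W, ∀ p ∈ S, f + w ∉ p := by
  classical
  induction S using Finset.strongInduction with
  | H S ih =>
    rcases S.eq_empty_or_nonempty with rfl | hne
    · exact ⟨0, W.zero_mem, by simp⟩
    obtain ⟨p, hpS, hmin⟩ := S.exists_minimal hne
    obtain ⟨w, hw, hw'⟩ := ih (S.erase p) (Finset.erase_ssubset hpS)
      (fun q hq => hS q (Finset.mem_of_mem_erase hq))
      (fun q hq => h q (Finset.mem_of_mem_erase hq))
    by_cases hwp : f + w ∈ p
    · have := hS p hpS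
      have hWp : ¬W ≤ p := fun hle => h p hpS (by simpa using sub_mem hwp (hle hw)) hle
      have hqp : ∀ q ∈ S.erase p, ¬q ≤ p := fun q hq hle => (Finset.ne_of_mem_erase hq)
        (le_antisymm hle (hmin (Finset.mem_of_mem_erase hq) hle))
      have hnot : ¬(W * ∏ q ∈ S.erase p, q) ≤ p := by
        rw [this.mul_le, this.prod_le]
        rintro (hle | ⟨q, hq, hle⟩)
        exacts [hWp hle, hqp q hq hle]
      obtain ⟨w', hw'mem, hw'p⟩ := SetLike.not_le_iff_exists.1 hnot
      refine ⟨w + w', add_mem hw (Ideal.mul_le_left hw'mem), fun q hq hmem => ?_⟩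
      by_cases hqp' : q = p
      · subst hqp'
        exact hw'p (by simpa [add_assoc] using sub_mem hmem hwp)
      · have hq' := Finset.mem_erase.2 ⟨hqp', hq⟩
        have h1 : w' ∈ q := (Ideal.prod_le_inf.trans (Finset.inf_le hq'))
          (Ideal.mul_le_right hw'mem)
        refine hw' q hq' ?_
        convert sub_mem hmem h1 using 1
        ring
    · exact ⟨w, hw, fun q hq => if hqp : q = p then hqp ▸ hwp else
        hw' q (Finset.mem_erase.2 ⟨hqp, hq⟩)⟩

end Fermat.Agent.TwoAdic.Criterion
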