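import Fermat.Agent.Patching.PowerSeriesRegular
import Fermat.Agent.DefRing.PowerSeriesLocal
import Fermat.Agent.TwoAdic.Criterion.Socle
import Mathlib.Data.Matrix.Mul

/-!
# Linear parts and coordinate ideals in `O⟦X₁, …, X_r⟧`
-/

set_option autoImplicit false

open IsLocalRing MvPowerSeries

namespace Fermat.Agent.TwoAdic.Criterion

variable {O : Type} [CommRing O] {r : ℕ}

/-- The vector of the variables. -/
noncomputable def varVec (O : Type) [CommRing O] (r : ℕ) : Fin r → MvPowerSeries (Fin r) O :=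
  fun j => X j

/-- The ideal of the variables. -/
noncomputable def varIdeal (O : Type) [CommRing O] (r : ℕ) : Ideal (MvPowerSeries (Fin r) O) :=
  Ideal.span (Set.range (varVec O r))

theorem mem_varIdeal_iff {f : MvPowerSeries (Fin r) O} :
    f ∈ varIdeal O r ↔ constantCoeff f = 0 :=
  Patching.mem_span_range_X_iff O r f

theorem dotProduct_varVec_mem (a : Fin r → MvPowerSeries (Fin r) O) :
    a ⬝ᵥ varVec O r ∈ varIdeal O r :=
  sum_mem fun j _ => Ideal.mul_mem_left _ _ (Ideal.subset_span ⟨j, rfl⟩)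

theorem exists_row {f : MvPowerSeries (Fin r) O} (hf : constantCoeff f = 0) :
    ∃ a : Fin r → MvPowerSeries (Fin r) O, f = a ⬝ᵥ varVec O r := by
  obtain ⟨c, hc⟩ := Submodule.mem_span_range_iff_exists_fun _ |>.1 (mem_varIdeal_iff.2 hf)
  exact ⟨c, hc.symm⟩

/-- The coefficients of the monomials of degree one. -/
noncomputable def linPart : MvPowerSeries (Fin r) O →ₗ[O] (Fin r → O) :=
  LinearMap.pi fun j => coeff (Finsupp.single j 1)

theorem linPart_apply (f : MvPowerSeries (Fin r) O) (j : Fin r) :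
    linPart f j = coeff (Finsupp.single j 1) f := rfl

theorem linPart_dotProduct (a : Fin r → MvPowerSeries (Fin r) O) :
    linPart (a ⬝ᵥ varVec O r) = fun j => constantCoeff (a j) := by
  classical
  funext j
  rw [linPart_apply, dotProduct, map_sum, Finset.sum_eq_single j]
  · rw [varVec, X, coeff_mul_monomial, if_pos le_rfl, tsub_self, mul_one,
      coeff_zero_eq_constantCoeff]
  · intro k _ hk
    rw [varVec, X, coeff_mul_monomial, if_neg]
    intro h
    have := h k
    simp [hk] at this
  · simp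

theorem linPart_mul {f : MvPowerSeries (Fin r) O} (p : MvPowerSeries (Fin r) O)
    (hf : constantCoeff f = 0) : linPart (p * f) = constantCoeff p • linPart f := by
  obtain ⟨a, rfl⟩ := exists_row hf
  rw [← smul_eq_mul, ← smul_dotProduct, linPart_dotProduct, linPart_dotProduct]
  funext j
  simp

theorem linPart_eq_zero {f : MvPowerSeries (Fin r) O} (hf : f ∈ varIdeal O r ^ 2) :
    linPart f = 0 := by
  rw [pow_two] at hf
  refine Submodule.mul_induction_on hf (fun a ha b hb => ?_) fun a b ha hb => ?_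
  · rw [linPart_mul a (mem_varIdeal_iff.1 hb), mem_varIdeal_iff.1 ha, zero_smul]
  · rw [map_add, ha, hb, add_zero]

theorem mem_span_insert_image_iff (ϖ : O) (T : Finset (Fin r)) (f : MvPowerSeries (Fin r) O) :
    f ∈ Ideal.span (insert (C ϖ) (varVec O r '' ↑T)) ↔
      ∀ m : Fin r →₀ ℕ, (∀ j ∈ T, m j = 0) → ϖ ∣ coeff m f := by
  classical
  rw [Ideal.span_insert, sup_comm, mem_sup_span_singleton]
  simp only [varVec, Patching.mem_span_X_image_iff, map_sub, coeff_C_mul]
  constructor
  · rintro ⟨s, hs⟩ m hm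
    exact ⟨coeff m s, sub_eq_zero.1 (hs m hm)⟩
  · intro h
    choose g hg using fun m (hm : ∀ j ∈ T, m j = 0) => h m hm
    let s : MvPowerSeries (Fin r) O := fun m => if hm : ∀ j ∈ T, m j = 0 then g m hm else 0
    refine ⟨s, fun m hm => ?_⟩
    have : coeff m s = g m hm := dif_pos hm
    rw [this, ← hg m hm, sub_self]

theorem regOn_varVec (ϖ : O) {T : Finset (Fin r)} {i : Fin r} (hi : i ∉ T) :
    RegOn (Ideal.span (insert (C ϖ) (varVec O r '' ↑T))) (varVec O r i) := by
  intro u hu
  rw [mem_span_insert_image_iff] at hu ⊢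
  intro m hm
  have := hu (Finsupp.single i 1 + m) fun j hj => by
    have hne : j ≠ i := fun h => hi (h ▸ hj)
    simp [hm j hj, hne]
  rw [varVec, X, coeff_add_monomial_mul, one_mul] at this
  exact this

variable [IsLocalRing O]

theorem varIdeal_le_maximalIdeal : varIdeal O r ≤ maximalIdeal (MvPowerSeries (Fin r) O) :=
  DefRing.span_X_le_maximalIdeal

theorem maximalIdeal_le_span {ϖ : O} (hϖ : maximalIdeal O = Ideal.span {ϖ}) :
    maximalIdeal (MvPowerSeries (Fin r) O) ≤
      Ideal.span (insert (C ϖ) (Set.range (varVec O r))) := by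
  intro f hf
  rw [DefRing.mem_maximalIdeal_iff_constantCoeff, hϖ, Ideal.mem_span_singleton] at hf
  obtain ⟨c, hc⟩ := hf
  rw [Ideal.span_insert, sup_comm, mem_sup_span_singleton]
  refine ⟨C c, mem_varIdeal_iff.2 ?_⟩
  rw [map_sub, map_mul, constantCoeff_C, constantCoeff_C, hc, sub_self]

theorem span_le_maximalIdeal {ϖ : O} (hϖ : maximalIdeal O = Ideal.span {ϖ}) :
    Ideal.span (insert (C ϖ) (Set.range (varVec O r))) ≤
      maximalIdeal (MvPowerSeries (Fin r) O) := by
  rw [Ideal.span_insert, sup_le_iff, Ideal.span_singleton_le_iff_mem,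
    DefRing.mem_maximalIdeal_iff_constantCoeff, constantCoeff_C, hϖ]
  exact ⟨Ideal.mem_span_singleton_self ϖ, varIdeal_le_maximalIdeal⟩

end Fermat.Agent.TwoAdic.Criterion
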